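import Mathlib

set_option autoImplicit false
set_option linter.unusedVariables false
set_option linter.style.haveILetI false

open scoped Pointwise

namespace FA_Frob

section Abstract

variable {K L : Type*} [Field K] [Field L] [Algebra K L]

/-- The Galois action on a Galois-stable valuation subring. -/
@[reducible]
noncomputable def mulSemiringActionOfStable (𝒪 : ValuationSubring L)
    (hstab : ∀ (τ : L ≃ₐ[K] L) (x : L), x ∈ 𝒪 → τ x ∈ 𝒪) :
    MulSemiringAction (L ≃ₐ[K] L) 𝒪 where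
  smul τ b := ⟨τ b.1, hstab τ b.1 b.2⟩
  one_smul b := rfl
  mul_smul σ τ b := rfl
  smul_zero τ := Subtype.ext (map_zero τ)
  smul_add τ a b := Subtype.ext (map_add τ a.1 b.1)
  smul_one τ := Subtype.ext (map_one τ)
  smul_mul τ a b := Subtype.ext (map_mul τ a.1 b.1)

theorem exists_frob_abstract [IsGalois K L]
    (𝒪 : ValuationSubring L) (hstab : ∀ (τ : L ≃ₐ[K] L) (x : L), x ∈ 𝒪 → τ x ∈ 𝒪)
    (q : ℕ) (hq : q.Prime) (hqm : (q : L) ∈ 𝒪.nonunits)
    (hK : ∀ a : K, algebraMap K L a ∈ 𝒪 →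
      (algebraMap K L a) ^ q - algebraMap K L a ∈ 𝒪.nonunits)
    (hroot : ∀ x : L, ∃ y : L, y ^ q = x) :
    ∃ τ : L ≃ₐ[K] L, ∀ x ∈ 𝒪, τ x - x ^ q ∈ 𝒪.nonunits := by
  classical
  letI act : MulSemiringAction (L ≃ₐ[K] L) 𝒪 := mulSemiringActionOfStable 𝒪 hstab
  let 𝒪K : ValuationSubring K := 𝒪.comap (algebraMap K L)
  let φ : 𝒪K →+* 𝒪 :=
    { toFun := fun a => ⟨algebraMap K L a.1, a.2⟩
      map_one' := Subtype.ext (map_one _)
      map_mul' := fun a b => Subtype.ext (map_mul _ _ _)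
      map_zero' := Subtype.ext (map_zero _)
      map_add' := fun a b => Subtype.ext (map_add _ _ _) }
  letI : Algebra 𝒪K 𝒪 := φ.toAlgebra
  have hφ : ∀ a : 𝒪K, ((algebraMap 𝒪K 𝒪 a : 𝒪) : L) = algebraMap K L a.1 := fun a => rfl
  have hsmul : ∀ (τ : L ≃ₐ[K] L) (b : 𝒪), ((τ • b : 𝒪) : L) = τ b.1 := fun τ b => rfl
  haveI : SMulCommClass (L ≃ₐ[K] L) 𝒪K 𝒪 := ⟨fun τ a b => by
    apply Subtype.ext
    rw [Algebra.smul_def, Algebra.smul_def, hsmul]
    show τ (algebraMap K L a.1 * b.1) = algebraMap K L a.1 * τ b.1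
    rw [map_mul, AlgEquiv.commutes]⟩
  haveI : Algebra.IsInvariant 𝒪K 𝒪 (L ≃ₐ[K] L) := ⟨fun b hb => by
    have h1 : b.1 ∈ Set.range (algebraMap K L) := by
      rw [InfiniteGalois.mem_range_algebraMap_iff_fixed]
      intro τ
      exact congrArg Subtype.val (hb τ)
    obtain ⟨a, ha⟩ := h1
    refine ⟨⟨a, ?_⟩, Subtype.ext ha⟩
    show algebraMap K L a ∈ 𝒪
    rw [ha]; exact b.2⟩
  letI : TopologicalSpace 𝒪 := ⊥
  haveI : DiscreteTopology 𝒪 := ⟨rfl⟩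
  haveI : ContinuousSMul (L ≃ₐ[K] L) 𝒪 := by
    rw [continuousSMul_iff_stabilizer_isOpen]
    intro b
    have := stabilizer_isOpen_of_isIntegral (K := K) (L := L) b.1
    convert this using 1
    ext τ
    simp only [SetLike.mem_coe, MulAction.mem_stabilizer_iff]
    constructor
    · intro h; exact congrArg Subtype.val h
    · intro h; exact Subtype.ext h
  let P : Ideal 𝒪K := IsLocalRing.maximalIdeal 𝒪K
  let Q : Ideal 𝒪 := IsLocalRing.maximalIdeal 𝒪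
  have hmemQ : ∀ b : 𝒪, b ∈ Q ↔ b.1 ∈ 𝒪.nonunits := by
    intro b
    rw [ValuationSubring.mem_nonunits_iff_exists_mem_maximalIdeal]
    constructor
    · intro h; exact ⟨b.2, h⟩
    · rintro ⟨_, h⟩; exact h
  haveI : Q.LiesOver P := ⟨by
    ext a
    rw [Ideal.under_def, Ideal.mem_comap]
    show a ∈ IsLocalRing.maximalIdeal 𝒪K ↔ algebraMap 𝒪K 𝒪 a ∈ IsLocalRing.maximalIdeal 𝒪
    rw [IsLocalRing.mem_maximalIdeal, IsLocalRing.mem_maximalIdeal, mem_nonunits_iff,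
      mem_nonunits_iff, not_iff_not]
    constructor
    · intro h; exact h.map (algebraMap 𝒪K 𝒪)
    · intro h
      obtain ⟨c, hc⟩ := h.exists_right_inv
      have hc' : algebraMap K L a.1 * c.1 = 1 := congrArg Subtype.val hc
      have ha0 : a.1 ≠ 0 := by
        intro h0
        rw [h0, map_zero, zero_mul] at hc'
        exact zero_ne_one hc'
      have hcinv : c.1 = algebraMap K L (a.1⁻¹) := by
        rw [map_inv₀]
        exact eq_inv_of_mul_eq_one_right hc'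
      refine IsUnit.of_mul_eq_one (⟨a.1⁻¹, ?_⟩ : 𝒪K) (Subtype.ext (mul_inv_cancel₀ ha0))
      show algebraMap K L (a.1⁻¹) ∈ 𝒪
      rw [← hcinv]; exact c.2⟩
  haveI : Q.IsPrime := (IsLocalRing.maximalIdeal.isMaximal 𝒪).isPrime
  haveI : Fact q.Prime := ⟨hq⟩
  haveI : CharP (𝒪 ⧸ Q) q := by
    have h0 : ((q : ℕ) : 𝒪 ⧸ Q) = 0 := by
      rw [← map_natCast (Ideal.Quotient.mk Q), Ideal.Quotient.eq_zero_iff_mem, hmemQ]
      simpa using hqm
    exact (CharP.charP_iff_prime_eq_zero hq).2 h0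
  -- the Frobenius automorphism of the residue field
  let Fhom : (𝒪 ⧸ Q) →ₐ[𝒪K ⧸ P] (𝒪 ⧸ Q) :=
    { frobenius (𝒪 ⧸ Q) q with
      commutes' := by
        intro a
        obtain ⟨a, rfl⟩ := Ideal.Quotient.mk_surjective a
        show (algebraMap (𝒪K ⧸ P) (𝒪 ⧸ Q) (Ideal.Quotient.mk P a)) ^ q =
          algebraMap (𝒪K ⧸ P) (𝒪 ⧸ Q) (Ideal.Quotient.mk P a)
        have h1 : algebraMap (𝒪K ⧸ P) (𝒪 ⧸ Q) (Ideal.Quotient.mk P a) =
            Ideal.Quotient.mk Q (algebraMap 𝒪K 𝒪 a) := rfl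
        rw [h1, ← map_pow, Ideal.Quotient.eq, hmemQ]
        exact hK a.1 a.2 }
  have hFapp : ∀ x : 𝒪 ⧸ Q, Fhom x = x ^ q := fun x => rfl
  have hFbij : Function.Bijective Fhom := by
    constructor
    · intro x y hxy
      rw [hFapp, hFapp] at hxy
      exact frobenius_inj (𝒪 ⧸ Q) q hxy
    · intro x
      obtain ⟨x, rfl⟩ := Ideal.Quotient.mk_surjective x
      obtain ⟨y, hy⟩ := hroot x.1
      have hy𝒪 : y ∈ 𝒪 := by
        rw [← ValuationSubring.valuation_le_one_iff]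
        have h1 : 𝒪.valuation y ^ q ≤ 1 := by
          rw [← map_pow, hy, ValuationSubring.valuation_le_one_iff]
          exact x.2
        exact (pow_le_one_iff_of_nonneg zero_le hq.ne_zero).1 h1
      refine ⟨Ideal.Quotient.mk Q ⟨y, hy𝒪⟩, ?_⟩
      rw [hFapp, ← map_pow]
      congr 1
      exact Subtype.ext hy
  let F : (𝒪 ⧸ Q) ≃ₐ[𝒪K ⧸ P] (𝒪 ⧸ Q) := AlgEquiv.ofBijective Fhom hFbij
  obtain ⟨⟨τ, hτ⟩, hτF⟩ := Ideal.Quotient.stabilizerHom_surjective_of_profinite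
    (G := (L ≃ₐ[K] L)) P Q F
  refine ⟨τ, fun x hx => ?_⟩
  have h2 := congrArg (fun e : (𝒪 ⧸ Q) ≃ₐ[𝒪K ⧸ P] (𝒪 ⧸ Q) => e (Ideal.Quotient.mk Q ⟨x, hx⟩)) hτF
  simp only [Ideal.Quotient.stabilizerHom_apply] at h2
  have h3 : F (Ideal.Quotient.mk Q ⟨x, hx⟩) = (Ideal.Quotient.mk Q ⟨x, hx⟩) ^ q := rfl
  rw [h3, ← map_pow, Ideal.Quotient.eq, hmemQ] at h2
  exact h2

end Abstract

end FA_Frob
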