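import Mathlib
import Fermat.Prelude.Def_GaloisRep_CompletionBridge
import Fermat.Prelude.Def_EllipticCurve_FrobeniusTrace
import Fermat.Agent.Frob.Abstract

set_option autoImplicit false
set_option linter.unusedVariables false
set_option linter.style.haveILetI false

open scoped NNReal Pointwise

namespace FA_Frob

variable (q : ℕ) [Fact q.Prime]

theorem mem_nonunits_padicIntegers {x : PadicAlgCl q} :
    x ∈ (padicIntegers q).nonunits ↔ ‖x‖₊ < 1 := by
  rw [ValuationSubring.mem_nonunits_iff_or, mem_padicIntegers_iff]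
  by_cases hx : x = 0
  · simp [hx]
  · simp only [hx, false_or, not_le, nnnorm_inv]
    have h0 : 0 < ‖x‖₊ := by simpa using hx
    rw [one_lt_inv₀ h0]

theorem mem_nonunits_padicPlace {x : AlgebraicClosure ℚ} :
    x ∈ (padicPlace q).nonunits ↔ ‖padicEmbedding q x‖₊ < 1 := by
  rw [ValuationSubring.mem_nonunits_iff_or, mem_padicPlace_iff]
  by_cases hx : x = 0
  · simp [hx]
  · have hx' : padicEmbedding q x ≠ 0 := by
      simpa using hx
    simp only [hx, false_or, not_le, map_inv₀, nnnorm_inv]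
    have h0 : 0 < ‖padicEmbedding q x‖₊ := by simpa using hx'
    rw [one_lt_inv₀ h0]

theorem exists_local_frob :
    ∃ τ : PadicAlgCl q ≃ₐ[ℚ_[q]] PadicAlgCl q, ∀ x : PadicAlgCl q, ‖x‖₊ ≤ 1 →
      ‖τ x - x ^ q‖₊ < 1 := by
  have hq : q.Prime := Fact.out
  obtain ⟨τ, hτ⟩ := exists_frob_abstract (K := ℚ_[q]) (L := PadicAlgCl q) (padicIntegers q)
    (fun τ x hx => by
      rw [mem_padicIntegers_iff] at hx ⊢
      rwa [nnnorm_padicAlgCl_algEquiv])
    q hq
    (by
      rw [mem_nonunits_padicIntegers]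
      have h := PadicAlgCl.valuation_p q
      rw [PadicAlgCl.valuation_def] at h
      rw [h, one_div]
      apply inv_lt_one_of_one_lt₀
      exact_mod_cast hq.one_lt)
    (by
      intro a ha
      rw [mem_padicIntegers_iff] at ha
      rw [mem_nonunits_padicIntegers]
      have ha' : ‖a‖ ≤ 1 := by
        have h1 : ‖(algebraMap ℚ_[q] (PadicAlgCl q) a)‖ ≤ 1 := by exact_mod_cast ha
        rwa [PadicAlgCl.norm_extends] at h1
      let z : ℤ_[q] := ⟨a, ha'⟩
      have hz : z ^ q - z ∈ IsLocalRing.maximalIdeal ℤ_[q] := by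
        rw [← PadicInt.ker_toZMod, RingHom.mem_ker, map_sub, map_pow, ZMod.pow_card, sub_self]
      rw [IsLocalRing.mem_maximalIdeal, PadicInt.mem_nonunits] at hz
      have hz' : ‖a ^ q - a‖ < 1 := by
        have : ((z ^ q - z : ℤ_[q]) : ℚ_[q]) = a ^ q - a := by
          push_cast
          rfl
        rw [← this]
        exact hz
      have h2 : ‖(algebraMap ℚ_[q] (PadicAlgCl q) a) ^ q - algebraMap ℚ_[q] (PadicAlgCl q) a‖ < 1 := by
        rw [← map_pow, ← map_sub, PadicAlgCl.norm_extends]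
        exact hz'
      exact_mod_cast h2)
    (fun x => IsAlgClosed.exists_pow_nat_eq x hq.pos)
  refine ⟨τ, fun x hx => ?_⟩
  rw [← mem_nonunits_padicIntegers]
  exact hτ x ((mem_padicIntegers_iff q).2 hx)


/-- For every prime `q` there is a place of `ℚ̄` above `q` with a Frobenius element. -/
theorem _root_.FA_exists_isFrobeniusAt (q : ℕ) (hq : q.Prime) :
    ∃ (A : ValuationSubring (AlgebraicClosure ℚ))
      (σ : AlgebraicClosure ℚ ≃ₐ[ℚ] AlgebraicClosure ℚ),
      A.LiesOverPrime q ∧ A.IsFrobeniusAt σ q := by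
  haveI : Fact q.Prime := ⟨hq⟩
  obtain ⟨τ, hτ⟩ := exists_local_frob q
  refine ⟨padicPlace q, localGaloisToGlobal q τ, ?_, ?_⟩
  · show (q : AlgebraicClosure ℚ) ∈ (padicPlace q).nonunits
    rw [mem_nonunits_padicPlace, map_natCast]
    have h := PadicAlgCl.valuation_p q
    rw [PadicAlgCl.valuation_def] at h
    rw [h, one_div]
    apply inv_lt_one_of_one_lt₀
    exact_mod_cast hq.one_lt
  · refine ⟨localGaloisToGlobal_mem_decompositionSubgroup q τ, fun x => ?_⟩
    obtain ⟨a, rfl⟩ := IsLocalRing.residue_surjective x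
    rw [← IsLocalRing.ResidueField.residue_smul, ← map_pow, ← sub_eq_zero, ← map_sub,
      IsLocalRing.residue_eq_zero_iff, ← ValuationSubring.coe_mem_nonunits_iff,
      mem_nonunits_padicPlace]
    have h1 : ‖padicEmbedding q a.1‖₊ ≤ 1 := (mem_padicPlace_iff q).1 a.2
    have h2 := hτ _ h1
    rw [← padicEmbedding_localGaloisToGlobal, ← map_pow, ← map_sub] at h2
    exact h2

end FA_Frob
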